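import Fermat.Agent.S58.Main.Defs
import Fermat.Agent.S58.Mod.Chig
import Fermat.Agent.S58.Mod.Iota

/-!
# S58, block MAIN : the `λ`-adic package fed to S35 / S36, and residual traces
-/

set_option autoImplicit false

namespace Fermat.Agent.S58

open Polynomial ModularFormClass CongruenceSubgroup

/-- LEAF MA-A (~60 lines).  `exists_chig` with `S = N.primeFactors ∪ {lam}` (a prime dividing `M`
divides `N`); for `ℓ ∉ S` prime, `ℓ ∤ N` (`Nat.mem_primeFactors`, `N ≠ 0`), so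
`qCoeff g ℓ = apOfModel ℓ` is in `(Int.castRingHom ℂ).range`; `exists_iota` with `O = ℤ_[lam]`. -/
theorem exists_chig_iota {W : WeierstrassCurve ℤ} {N M : ℕ} {g : CuspForm (Gamma0 M) 2}
    (h : Setup W N M g) [NeZero M] (lam : ℕ) [Fact lam.Prime] :
    ∃ (chig : CuspForm.heckeAlgebra M 2 (↑(N.primeFactors ∪ {lam}) : Set ℕ) →+* ℂ)
      (iota : chig.range →+* ℤ_[lam]),
      (∀ (ℓ : ℕ) (hℓ : ℓ.Prime) (hℓM : ¬ ℓ ∣ M) (hℓS : ℓ ∉ (↑(N.primeFactors ∪ {lam}) : Set ℕ)),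
        chig (CuspForm.heckeAlgebra.T hℓ hℓM hℓS) = qCoeff g ℓ) ∧
      (∀ (ℓ : ℕ) (hℓ : ℓ.Prime) (hℓM : ¬ ℓ ∣ M) (hℓS : ℓ ∉ (↑(N.primeFactors ∪ {lam}) : Set ℕ)),
        (iota.comp chig.rangeRestrict) (CuspForm.heckeAlgebra.T hℓ hℓM hℓS) =
          ((W.apOfModel ℓ : ℤ) : ℤ_[lam])) := by
  classical
  have hN0 : N ≠ 0 := h.hN.ne'
  have hS : ∀ q : ℕ, q.Prime → q ∣ M → q ∈ N.primeFactors ∪ {lam} := fun q hq hqM =>
    Finset.mem_union_left _ (Nat.mem_primeFactors.2 ⟨hq, hqM.trans h.hMN, hN0⟩)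
  obtain ⟨chig, hT, hR⟩ := exists_chig h.new.1 (N.primeFactors ∪ {lam}) hS
  have hcoef : ∀ ℓ : ℕ, ℓ.Prime → ℓ ∉ N.primeFactors ∪ {lam} →
      qCoeff g ℓ = (W.apOfModel ℓ : ℂ) := by
    intro ℓ hℓ hℓS
    apply h.coeff ℓ hℓ
    intro hdvd
    exact hℓS (Finset.mem_union_left _ (Nat.mem_primeFactors.2 ⟨hℓ, hdvd, hN0⟩))
  have hint : ∀ t, chig t ∈ (Int.castRingHom ℂ).range :=
    hR _ (fun ℓ hℓ _ hℓS => ⟨W.apOfModel ℓ, by rw [hcoef ℓ hℓ hℓS]; rfl⟩)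
  obtain ⟨iota, hi⟩ := exists_iota chig hint ℤ_[lam]
  refine ⟨chig, iota, hT, fun ℓ hℓ hℓM hℓS => ?_⟩
  rw [RingHom.comp_apply]
  apply hi
  rw [hT, hcoef ℓ hℓ (fun hmem => hℓS (Finset.mem_coe.2 hmem))]

/-- LEAF MA-B (~40 lines).  `ρ.residual.ρ σ = (ρ.ρ σ).baseChange κ` by definition (`rfl`);
`LinearMap.charpoly_baseChange`; `Polynomial.map` of `X² - C a X + C ℓ` (`simp`, `map_intCast`,
`map_natCast`). -/
theorem residual_hasTraces (W : WeierstrassCurve ℤ) {O : Type} [CommRing O] [IsLocalRing O]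
    (ρ : GaloisRepAdic O) (B : Finset ℕ) (hρ : HasTraces W ρ.ρ B) :
    HasTraces W ρ.residual.ρ B := by
  intro ℓ hℓ hℓB A hA σ hσ
  have h1 := hρ ℓ hℓ hℓB A hA σ hσ
  show LinearMap.charpoly ((ρ.ρ σ).baseChange (IsLocalRing.ResidueField O)) = _
  rw [LinearMap.charpoly_baseChange, h1]
  simp

/-- LEAF MA-C (~25 lines).  `(p : κ) = residue (p : O) = 0`; `CharP.ofCharZero`-free:
`CharP.of_prime...`: in a field (nontrivial ring) with `(p : κ) = 0`, `p` prime: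
`ringChar.of_prime_eq_zero` / `CharP.ringChar_of_prime_eq_zero`, `ringChar.charP`. -/
theorem charP_residueField {O : Type} [CommRing O] [IsLocalRing O] (p : ℕ) (hp : p.Prime)
    (hpO : (p : O) ∈ IsLocalRing.maximalIdeal O) : CharP (IsLocalRing.ResidueField O) p := by
  have h0 : ((p : ℕ) : IsLocalRing.ResidueField O) = 0 := by
    rw [← map_natCast (IsLocalRing.residue O), IsLocalRing.residue_eq_zero_iff]
    exact hpO
  have h1 := CharP.ringChar_of_prime_eq_zero hp h0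
  have h2 := ringChar.charP (IsLocalRing.ResidueField O)
  rwa [h1] at h2

/-- LEAF MA-D (~20 lines).  `map_natCast`, `map_nonunit` for the local hom;
`PadicInt.mem_nonunits`/`PadicInt.p_nonunit`. -/
theorem natCast_mem_maximalIdeal_of_algebra (p : ℕ) [Fact p.Prime] (O : Type) [CommRing O]
    [IsLocalRing O] [Algebra ℤ_[p] O] [IsLocalHom (algebraMap ℤ_[p] O)] :
    (p : ℤ_[p]) ∈ IsLocalRing.maximalIdeal ℤ_[p] ∧ (p : O) ∈ IsLocalRing.maximalIdeal O := by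
  have h1 : (p : ℤ_[p]) ∈ IsLocalRing.maximalIdeal ℤ_[p] := by
    rw [IsLocalRing.mem_maximalIdeal]
    exact PadicInt.p_nonunit
  refine ⟨h1, ?_⟩
  have h2 := map_nonunit (algebraMap ℤ_[p] O) (p : ℤ_[p]) h1
  rwa [map_natCast] at h2

end Fermat.Agent.S58
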