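import Fermat.Agent.S58.Contracts

/-!
# S58, block MAIN : definitions
-/

set_option autoImplicit false

namespace Fermat.Agent.S58

open Polynomial ModularFormClass CongruenceSubgroup

/-- `r` has the Frobenius characteristic polynomials of `W` outside `B`. -/
def HasTraces (W : WeierstrassCurve ℤ) {R : Type} [CommRing R] {V : Type} [AddCommGroup V]
    [Module R V] [Module.Free R V] [Module.Finite R V] (r : GQ →* Module.End R V)
    (B : Finset ℕ) : Prop :=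
  ∀ ℓ : ℕ, ℓ.Prime → ℓ ∉ B → ∀ A : ValuationSubring Qb, A.LiesOverPrime ℓ →
    ∀ σ : GQ, A.IsFrobeniusAt σ ℓ →
      LinearMap.charpoly (r σ) = X ^ 2 - C ((W.apOfModel ℓ : ℤ) : R) * X + C (ℓ : R)

/-- the situation after newform extraction. -/
structure Setup (W : WeierstrassCurve ℤ) (N M : ℕ) (g : CuspForm (Gamma0 M) 2) : Prop where
  hΔ : W.Δ ≠ 0
  hN : 0 < N
  hMN : M ∣ N
  hbad : ∀ ℓ : ℕ, ℓ.Prime → (ℓ : ℤ) ∣ W.Δ → ℓ ∣ N
  new : g.IsNewform
  coeff : ∀ ℓ : ℕ, ℓ.Prime → ¬ ℓ ∣ N → qCoeff g ℓ = (W.apOfModel ℓ : ℂ)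

theorem Setup.hM {W : WeierstrassCurve ℤ} {N M : ℕ} {g : CuspForm (Gamma0 M) 2}
    (h : Setup W N M g) : 0 < M := Nat.pos_of_dvd_of_pos h.hMN h.hN

end Fermat.Agent.S58
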