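import Fermat.Agent.S58.Main.Small
import Fermat.Agent.S58.Main.Adic
import Fermat.Agent.S58.Quad.Main
import Fermat.Agent.Lib.Frobenius

/-!
# S58, block MAIN, step (B) : a prime exactly dividing the level of the newform is bad
-/

set_option autoImplicit false

namespace Fermat.Agent.S58

open Polynomial ModularFormClass CongruenceSubgroup

theorem bad_of_dvd_level (h35 : S35Stmt) (hQ : StmtQuad) (hF : StmtFrob) (hT : StmtTors)
    {W : WeierstrassCurve ℤ} {N M : ℕ} {g : CuspForm (Gamma0 M) 2}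
    (h : Setup W N M g) (q : ℕ) (hq : q.Prime) (hqM : q ∣ M) (hq2 : ¬ q ^ 2 ∣ M) :
    (q : ℤ) ∣ W.Δ := by
  by_contra hgood
  obtain ⟨lam, hlam1, hlam⟩ := Nat.exists_infinite_primes (2 * q + 3)
  haveI : Fact lam.Prime := ⟨hlam⟩
  haveI : NeZero M := ⟨h.hM.ne'⟩
  have hqlam : q ≠ lam := by omega
  obtain ⟨chig, iota, hchig, hiota⟩ := exists_chig_iota h lam
  have hlamZ : (lam : ℤ_[lam]) ∈ IsLocalRing.maximalIdeal ℤ_[lam] := by
    rw [IsLocalRing.mem_maximalIdeal, mem_nonunits_iff]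
    exact PadicInt.p_nonunit
  have hnd : ∀ ℓ : ℕ, ℓ.Prime → ℓ ∉ N.primeFactors ∪ {lam} → ¬ ℓ ∣ M := by
    intro ℓ hℓ hmem hd
    apply hmem
    rw [Finset.mem_union]
    exact Or.inl (Nat.mem_primeFactors.mpr ⟨hℓ, hd.trans h.hMN, h.hN.ne'⟩)
  obtain ⟨O'', i1, i2, i3, i4, i5, i6, i7, i8, i9, hinj, ρ, hρ, hρq⟩ :=
    h35 h.new lam (N.primeFactors ∪ {lam}) ℤ_[lam] hlamZ chig hchig iota (by simp)
      (fun r hr hrM => Finset.mem_union.mpr
        (Or.inl (Nat.mem_primeFactors.mpr ⟨hr, hrM.trans h.hMN, h.hN.ne'⟩)))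
  have hlamO := (natCast_mem_maximalIdeal_of_algebra lam O'').2
  have htr : HasTraces W ρ.ρ (N.primeFactors ∪ {lam}) := by
    intro ℓ hℓ hmem A hA σ hσ
    rw [hρ ℓ hℓ (hnd ℓ hℓ hmem) (by simpa using hmem) A hA σ hσ, hiota, map_intCast]
  obtain ⟨A, σ, hA, hσ⟩ := Fermat.Agent.Lib.Frobenius.exists_frobenius hq
  have hcp := hρq q hq hqlam hqM hq2 A hA σ hσ
  obtain ⟨L, hL, hLρ⟩ := ρ.isAdicContinuous 1
  obtain ⟨t, d, ht, hd, -, hP⟩ := hQ W h.hΔ O'' ρ.V ρ.finrank_eq ρ.ρ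
    (IsLocalRing.maximalIdeal O'' ^ 1) L hL hLρ _ htr lam hlam.pos σ
  rw [pow_one] at ht hd
  obtain ⟨P, hPord⟩ := hT.exact W h.hΔ lam hlam 1
  rw [pow_one] at hPord
  have hP0 : lam • P = 0 := by rw [← hPord]; exact addOrderOf_nsmul_eq_zero P
  have hfr := hF W q hq hgood A hA σ hσ lam
    (fun hd => hqlam ((Nat.prime_dvd_prime_iff_eq hq hlam).mp hd)) P hP0
  have hmax : IsLocalRing.maximalIdeal O'' ≠ ⊤ := Ideal.IsPrime.ne_top'
  have hb := abs_apOfModel_le W q hq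
  have key : ∀ e : ℤ, (LinearMap.charpoly (ρ.ρ σ)) = X ^ 2 - C ((e : ℤ) : O'') * X + C ((q : O'')) →
      (lam : ℤ) ∣ W.apOfModel q - e := by
    intro e he
    rw [he, (quad_coeff _ _).1] at ht
    rw [he, (quad_coeff _ _).2] at hd
    have h1 : (lam : ℤ) ∣ t - e := by
      apply dvd_of_intCast_mem _ hmax lam hlam hlamO
      push_cast
      rw [sub_eq_neg_add]
      exact ht
    have h2 : (lam : ℤ) ∣ (d : ℤ) - (q : ℤ) := by
      apply dvd_of_intCast_mem _ hmax lam hlam hlamO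
      push_cast
      rw [← neg_sub]
      exact neg_mem hd
    have h3 := dvd_sub_of_two_relations W σ P lam hPord t (W.apOfModel q) d q (hP P hP0) hfr h2
    have : W.apOfModel q - e = (t - e) - (t - W.apOfModel q) := by ring
    rw [this]
    exact dvd_sub h1 h3
  rcases hcp with hcp | hcp
  · have h1 := key ((q : ℤ) + 1) (by rw [hcp]; push_cast; rfl)
    obtain ⟨c, hc⟩ := h1
    have hl : (2 * q + 3 : ℤ) ≤ lam := by exact_mod_cast hlam1
    have hc0 : c ≠ 0 := by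
      rintro rfl
      omega
    rcases lt_or_gt_of_ne hc0 with hc1 | hc1
    · nlinarith [hb.1, hb.2]
    · nlinarith [hb.1, hb.2]
  · have h1 := key (-((q : ℤ) + 1)) (by rw [hcp]; push_cast; rw [C_neg]; ring)
    obtain ⟨c, hc⟩ := h1
    have hl : (2 * q + 3 : ℤ) ≤ lam := by exact_mod_cast hlam1
    have hc0 : c ≠ 0 := by
      rintro rfl
      omega
    rcases lt_or_gt_of_ne hc0 with hc1 | hc1
    · nlinarith [hb.1, hb.2]
    · nlinarith [hb.1, hb.2]

end Fermat.Agent.S58
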