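import Fermat.Agent.S58.Main.Small
import Fermat.Agent.S58.Mod.Zbar
import Fermat.Agent.S58.Quad.Main
import Fermat.Agent.Lib.Frobenius
import Fermat.Agent.S29

/-!
# S58, block MAIN, step (C) : the coefficients of the newform at ALL good primes not dividing its
level are those of the curve
-/

set_option autoImplicit false

namespace Fermat.Agent.S58

open Polynomial ModularFormClass CongruenceSubgroup

theorem charP_of_prime_of_natCast_eq_zero (k : Type*) [Field k] (p : ℕ) (hp : p.Prime)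
    (h : (p : k) = 0) : CharP k p := by
  have := CharP.ringChar_of_prime_eq_zero hp h
  rw [← this]
  exact ringChar.charP k

/-- the congruence modulo one prime `lam ≠ ℓ₀`. -/
theorem coeff_congr_of_good (hQ : StmtQuad) (hF : StmtFrob) (hT : StmtTors)
    {W : WeierstrassCurve ℤ} {N M : ℕ} {g : CuspForm (Gamma0 M) 2} (h : Setup W N M g)
    (ℓ₀ : ℕ) (hℓ₀ : ℓ₀.Prime) (hgood : W.IsGoodPrimeFor ℓ₀) (hM : ¬ ℓ₀ ∣ M)
    (lam : ℕ) (hlam : lam.Prime) (hne : lam ≠ ℓ₀) :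
    ∃ a : integralClosure ℤ ℂ, (a : ℂ) = qCoeff g ℓ₀ ∧
      ∃ 𝔪 : Ideal (integralClosure ℤ ℂ), 𝔪 ≠ ⊤ ∧ (lam : integralClosure ℤ ℂ) ∈ 𝔪 ∧
        a - ((W.apOfModel ℓ₀ : ℤ) : integralClosure ℤ ℂ) ∈ 𝔪 := by
  obtain ⟨𝔪, hmax, hmem⟩ := FLTPrelim.exists_maximalIdeal_natCast_prime_mem hlam
  letI : Field (integralClosure ℤ ℂ ⧸ 𝔪) := Ideal.Quotient.field 𝔪
  set φ : integralClosure ℤ ℂ →+* (integralClosure ℤ ℂ ⧸ 𝔪) := Ideal.Quotient.mk 𝔪 with hφ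
  have hlam0 : ((lam : ℕ) : integralClosure ℤ ℂ ⧸ 𝔪) = 0 := by
    have : φ (lam : integralClosure ℤ ℂ) = 0 := Ideal.Quotient.eq_zero_iff_mem.mpr hmem
    simpa using this
  haveI : CharP (integralClosure ℤ ℂ ⧸ 𝔪) lam := charP_of_prime_of_natCast_eq_zero _ lam hlam hlam0
  obtain ⟨ρ, hatt, -⟩ := Fermat.Agent.S29.result h.new.1 hlam φ
  have hne0 : ∀ ℓ : ℕ, ℓ.Prime → ℓ ≠ lam → ((ℓ : ℕ) : integralClosure ℤ ℂ ⧸ 𝔪) ≠ 0 := by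
    intro ℓ hℓ hℓlam h0
    rw [CharP.cast_eq_zero_iff _ lam] at h0
    exact hℓlam ((Nat.prime_dvd_prime_iff_eq hlam hℓ).mp h0).symm
  have htr : HasTraces W ρ.ρ (N.primeFactors ∪ {lam}) := by
    intro ℓ hℓ hmem' A hA σ hσ
    simp only [Finset.mem_union, Finset.mem_singleton, not_or] at hmem'
    have hℓN : ¬ ℓ ∣ N := fun hd => hmem'.1 (Nat.mem_primeFactors.mpr ⟨hℓ, hd, h.hN.ne'⟩)
    obtain ⟨a, ha, hcp⟩ := hatt ℓ hℓ (fun hd => hℓN (hd.trans h.hMN)) (hne0 ℓ hℓ hmem'.2) A hA σ hσ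
    have ha' : a = ((W.apOfModel ℓ : ℤ) : integralClosure ℤ ℂ) := by
      apply Subtype.ext
      rw [ha, h.coeff ℓ hℓ hℓN]
      simp
    rw [hcp, ha', map_intCast]
  obtain ⟨A, σ, hA, hσ⟩ := Fermat.Agent.Lib.Frobenius.exists_frobenius hℓ₀
  obtain ⟨a, ha, hcp⟩ := hatt ℓ₀ hℓ₀ hM (hne0 ℓ₀ hℓ₀ hne.symm) A hA σ hσ
  obtain ⟨L, hL, hLρ⟩ := ρ.factorsThroughFiniteLevel
  obtain ⟨t, d, ht, hd, -, hP⟩ := hQ W h.hΔ _ ρ.V ρ.finrank_eq ρ.ρ ⊥ L hL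
    (fun τ hτ v => by rw [hLρ τ hτ]; simp) _ htr lam hlam.pos σ
  rw [hcp, (quad_coeff _ _).1, Ideal.mem_bot] at ht
  rw [hcp, (quad_coeff _ _).2, Ideal.mem_bot] at hd
  obtain ⟨P, hPord⟩ := hT.exact W h.hΔ lam hlam 1
  rw [pow_one] at hPord
  have hP0 : lam • P = 0 := by rw [← hPord]; exact addOrderOf_nsmul_eq_zero P
  have hfr := hF W ℓ₀ hℓ₀ hgood A hA σ hσ lam
    (fun hd => hne ((Nat.prime_dvd_prime_iff_eq hℓ₀ hlam).mp hd).symm) P hP0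
  have h2 : (lam : ℤ) ∣ (d : ℤ) - (ℓ₀ : ℤ) := by
    rw [← CharP.intCast_eq_zero_iff (integralClosure ℤ ℂ ⧸ 𝔪) lam]
    push_cast
    rw [← neg_sub, hd, neg_zero]
  have h3 := dvd_sub_of_two_relations W σ P lam hPord t (W.apOfModel ℓ₀) d ℓ₀ (hP P hP0) hfr h2
  rw [← CharP.intCast_eq_zero_iff (integralClosure ℤ ℂ ⧸ 𝔪) lam] at h3
  refine ⟨a, ha, 𝔪, hmax.ne_top, hmem, ?_⟩
  rw [← Ideal.Quotient.eq_zero_iff_mem, ← hφ, map_sub, map_intCast]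
  push_cast at h3
  linear_combination (-1 : integralClosure ℤ ℂ ⧸ 𝔪) * ht + h3

theorem coeff_eq_of_good (hQ : StmtQuad) (hF : StmtFrob) (hT : StmtTors)
    {W : WeierstrassCurve ℤ} {N M : ℕ} {g : CuspForm (Gamma0 M) 2} (h : Setup W N M g)
    (ℓ₀ : ℕ) (hℓ₀ : ℓ₀.Prime) (hgood : W.IsGoodPrimeFor ℓ₀) (hM : ¬ ℓ₀ ∣ M) :
    qCoeff g ℓ₀ = (W.apOfModel ℓ₀ : ℂ) := by
  obtain ⟨lam₁, hlam₁, hp₁⟩ := Nat.exists_infinite_primes (ℓ₀ + 1)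
  obtain ⟨a₀, ha₀, -⟩ := coeff_congr_of_good hQ hF hT h ℓ₀ hℓ₀ hgood hM lam₁ hp₁ (by omega)
  have hz := zbar_eq_zero_of_infinite (a₀ - ((W.apOfModel ℓ₀ : ℤ) : integralClosure ℤ ℂ))
    {lam | lam.Prime ∧ lam ≠ ℓ₀}
    (by
      have h1 : {lam : ℕ | lam.Prime ∧ lam ≠ ℓ₀} = {lam : ℕ | lam.Prime} \ {ℓ₀} := by
        ext x; simp
      rw [h1]
      exact Nat.infinite_setOf_prime.diff (Set.finite_singleton _))
    (by
      rintro lam ⟨hlam, hne⟩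
      obtain ⟨a, ha, 𝔪, h1, h2, h3⟩ := coeff_congr_of_good hQ hF hT h ℓ₀ hℓ₀ hgood hM lam hlam hne
      have : a = a₀ := Subtype.ext (ha.trans ha₀.symm)
      exact ⟨hlam, 𝔪, h1, h2, this ▸ h3⟩)
  rw [← ha₀, sub_eq_zero.mp hz]
  simp

end Fermat.Agent.S58
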