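import Fermat.Agent.S58.Main.Defs

/-!
# S58, block MAIN, step (D) : raising the level to the radical of the discriminant
-/

set_option autoImplicit false

namespace Fermat.Agent.S58

open ModularFormClass CongruenceSubgroup

/-- there is a normalised eigenform of level `L` with the coefficients of `W` at all good primes. -/
def StrongMod (W : WeierstrassCurve ℤ) (L : ℕ) : Prop :=
  ∃ g : CuspForm (Gamma0 L) 2, g.IsNormalizedEigenform ∧
    ∀ ℓ : ℕ, ℓ.Prime → W.IsGoodPrimeFor ℓ → qCoeff g ℓ = (W.apOfModel ℓ : ℂ)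

theorem StrongMod.step (hS : StmtStab) {W : WeierstrassCurve ℤ} {L : ℕ} (hL : 0 < L)
    (h : StrongMod W L) {q : ℕ} (hq : q.Prime) (hqL : ¬ q ∣ L) (hbad : (q : ℤ) ∣ W.Δ) :
    StrongMod W (L * q) := by
  obtain ⟨g, hg, hco⟩ := h
  obtain ⟨g', hg', hco'⟩ := hS L q hL hq hqL g hg
  refine ⟨g', hg', fun ℓ hℓ hgood => ?_⟩
  rw [hco' ℓ hℓ (by rintro rfl; exact hgood hbad), hco ℓ hℓ hgood]

theorem StrongMod.of_dvd (hS : StmtStab) {W : WeierstrassCurve ℤ} {R : ℕ} (hR : Squarefree R)
    (hRbad : ∀ q : ℕ, q.Prime → q ∣ R → (q : ℤ) ∣ W.Δ) :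
    ∀ (k L : ℕ), 0 < L → L * k = R → StrongMod W L → StrongMod W R := by
  intro k
  induction k using Nat.strong_induction_on with
  | _ k ih =>
    intro L hL hLk h
    by_cases hk : k = 1
    · subst hk
      rw [mul_one] at hLk
      exact hLk ▸ h
    · obtain ⟨q, hq, hqk⟩ := Nat.exists_prime_and_dvd hk
      obtain ⟨k', rfl⟩ := hqk
      have hR0 : R ≠ 0 := hR.ne_zero
      have hk'0 : 0 < k' := by
        rcases Nat.eq_zero_or_pos k' with rfl | h0
        · simp at hLk; exact absurd hLk.symm hR0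
        · exact h0
      have hqL : ¬ q ∣ L := by
        intro hd
        obtain ⟨L', rfl⟩ := hd
        have : q * q ∣ R := ⟨L' * k', by rw [← hLk]; ring⟩
        exact hq.not_isUnit (hR q this)
      have hqR : q ∣ R := ⟨L * k', by rw [← hLk]; ring⟩
      refine ih k' ?_ (L * q) (Nat.mul_pos hL hq.pos) (by rw [← hLk]; ring)
        (h.step hS hL hq hqL (hRbad q hq hqR))
      calc k' = 1 * k' := (one_mul _).symm
        _ < q * k' := Nat.mul_lt_mul_of_pos_right hq.one_lt hk'0

end Fermat.Agent.S58
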