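import Fermat.Agent.S58.Main.StepA
import Fermat.Agent.S58.Main.StepB
import Fermat.Agent.S58.Main.StepC
import Fermat.Agent.S58.Main.StepD
import Fermat.Agent.S58.Mod.Newform

/-!
# S58, block MAIN : S58 from the contracts
-/

set_option autoImplicit false

namespace Fermat.Agent.S58

open ModularFormClass CongruenceSubgroup

theorem s58_of_contracts (h35 : S35Stmt) (h36 : S36Stmt) (hQ : StmtQuad) (hF : StmtFrob)
    (hI : StmtInert) (hT : StmtTors) (hR : StmtRes) (hS : StmtStab)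
    (W : WeierstrassCurve ℤ) (hss : W.IsSemistableModel) (N : ℕ)
    (p : ℕ) [Fact p.Prime] (hp2 : p ≠ 2) (hirr : W.ModRepIsIrreducible p)
    (hp2N : ¬ p ^ 2 ∣ N)
    (hN : W.IsModularModelOfLevel N) (hbad : ∀ ℓ : ℕ, ℓ.Prime → (ℓ : ℤ) ∣ W.Δ → ℓ ∣ N)
    (hN3 : ∀ q : ℕ, q.Prime → ¬ q ^ 3 ∣ N) :
    W.IsModularModelOfLevel W.conductorLevel := by
  have hp : p.Prime := Fact.out
  have hN0 : 0 < N := by
    rcases Nat.eq_zero_or_pos N with rfl | h
    · exact absurd (dvd_zero _) (hN3 2 Nat.prime_two)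
    · exact h
  have hΔ : W.Δ ≠ 0 := by
    intro h0
    -- every prime divides `N`
    obtain ⟨ℓ, hℓ1, hℓ⟩ := Nat.exists_infinite_primes (N + 1)
    have := Nat.le_of_dvd hN0 (hbad ℓ hℓ (by rw [h0]; exact dvd_zero _))
    omega
  obtain ⟨f, hf, hfco⟩ := hN
  obtain ⟨M, g, hMN, hnew, hgco⟩ := exists_newform hN0 f hf
  have hset : Setup W N M g :=
    { hΔ := hΔ
      hN := hN0
      hMN := hMN
      hbad := hbad
      new := hnew
      coeff := fun ℓ hℓ hℓN => by
        rw [hgco ℓ hℓ hℓN]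
        exact hfco ℓ hℓ (fun hd => hℓN (hbad ℓ hℓ hd)) hℓN }
  -- `M` is squarefree
  have hsq : ∀ q : ℕ, q.Prime → ¬ q ^ 2 ∣ M := by
    intro q hq
    by_cases hqp : q = p
    · subst hqp
      exact fun hd => hp2N (hd.trans hMN)
    · exact not_sq_dvd_level h36 hQ hI hT hR hset hss p hp2 hirr hN3 q hq hqp
  -- the primes dividing `M` are bad
  have hMbad : ∀ q : ℕ, q.Prime → q ∣ M → (q : ℤ) ∣ W.Δ := fun q hq hqM =>
    bad_of_dvd_level h35 hQ hF hT hset q hq hqM (hsq q hq)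
  have hMsq : Squarefree M := by
    rw [Nat.squarefree_iff_prime_squarefree]
    intro q hq hd
    exact hsq q hq (by rw [sq]; exact hd)
  -- `M` divides the conductor level
  have hMR : M ∣ W.conductorLevel := by
    refine (Nat.squarefree_iff_factorization_le_one hset.hM.ne').mp hMsq |> fun hle => ?_
    rw [← Nat.factorization_le_iff_dvd hset.hM.ne' W.conductorLevel_pos.ne']
    intro q
    by_cases hq : q.Prime
    · by_cases hqM : q ∣ M
      · have h1 : q ∣ W.conductorLevel :=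
          (W.prime_dvd_conductorLevel_iff hΔ hq).mpr (hMbad q hq hqM)
        exact (hle q).trans ((hq.dvd_iff_one_le_factorization W.conductorLevel_pos.ne').mp h1)
      · rw [Nat.factorization_eq_zero_of_not_dvd hqM]
        exact Nat.zero_le _
    · rw [Nat.factorization_eq_zero_of_not_prime _ hq]
      exact Nat.zero_le _
  have hstrong : StrongMod W M :=
    ⟨g, hnew.1, fun ℓ hℓ hgood =>
      coeff_eq_of_good hQ hF hT hset ℓ hℓ hgood (fun hd => hgood (hMbad ℓ hℓ hd))⟩
  obtain ⟨k, hk⟩ := hMR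
  obtain ⟨g', hg', hco'⟩ := StrongMod.of_dvd hS W.squarefree_conductorLevel
    (fun q hq hqR => (W.prime_dvd_conductorLevel_iff hΔ hq).mp hqR) k M hset.hM hk.symm hstrong
  exact ⟨g', hg', fun ℓ hℓ hgood _ => hco' ℓ hℓ hgood⟩

end Fermat.Agent.S58
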