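import Fermat.Agent.S58.Main.Defs

/-!
# S58, block MAIN : small auxiliary lemmas
-/

set_option autoImplicit false

namespace Fermat.Agent.S58

open Polynomial

/-- LEAF MU-A (~60 lines).  `P` of exact order `n` (`addOrderOf P = n`), `τ` an additive
automorphism-like map: from `x • τP = y • P`... concretely: if `σ²P - tσP + dP = 0`,
`σ²P - t'σP + d'P = 0` and `n ∣ d - d'` then `n ∣ t - t'`.
Proof: subtract: `(t' - t) • σP = (d' - d) • P = 0` (`n • P = 0`); `addOrderOf (σ • P) = n`
(`σ •` is injective and additive: `addOrderOf_injective` with `DistribMulAction.toAddMonoidHom`),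
`addOrderOf_dvd_iff_zsmul_eq_zero`. -/
theorem dvd_sub_of_two_relations (W : WeierstrassCurve ℤ) (σ : GQ) (P : EP W) (n : ℕ)
    (hP : addOrderOf P = n) (t t' d d' : ℤ)
    (h1 : σ • σ • P - t • σ • P + d • P = 0) (h2 : σ • σ • P - t' • σ • P + d' • P = 0)
    (hd : (n : ℤ) ∣ d - d') : (n : ℤ) ∣ t - t' := by
  have hord : addOrderOf (σ • P) = n := by
    rw [← hP]
    exact addOrderOf_injective (DistribSMul.toAddMonoidHom (EP W) σ) (MulAction.injective σ) P
  have h3 : (d - d') • P = 0 := by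
    rw [← addOrderOf_dvd_iff_zsmul_eq_zero, hP]
    exact hd
  have h4 : (t - t') • σ • P = 0 := by
    have h5 : (t - t') • σ • P = (σ • σ • P - t' • σ • P + d' • P) -
        (σ • σ • P - t • σ • P + d • P) + (d - d') • P := by
      rw [sub_smul, sub_smul]
      abel
    rw [h5, h1, h2, h3]
    simp
  rw [← hord, addOrderOf_dvd_iff_zsmul_eq_zero]
  exact h4

/-- LEAF MU-B (~40 lines).  A primitive `m`-th root of unity exists in `ℚ̄`
(`HasEnoughRootsOfUnity.exists_primitiveRoot Qb m`, `NeZero m`); `ζ ^ d = ζ ^ e` iff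
`d ≡ e [MOD m]` (`IsPrimitiveRoot.pow_inj` / `IsPrimitiveRoot.pow_eq_pow_iff_modEq`...). -/
theorem modEq_of_forall_rootOfUnity (m : ℕ) (hm : 0 < m) (d e : ℕ)
    (h : ∀ ζ : Qb, ζ ^ m = 1 → ζ ^ d = ζ ^ e) : (m : ℤ) ∣ (d : ℤ) - e := by
  have : NeZero m := ⟨hm.ne'⟩
  obtain ⟨ζ, hζ⟩ := HasEnoughRootsOfUnity.exists_primitiveRoot Qb m
  have h1 := h ζ hζ.pow_eq_one
  have hζ0 : ζ ≠ 0 := hζ.ne_zero hm.ne'
  rw [← hζ.zpow_eq_one_iff_dvd, zpow_sub₀ hζ0, zpow_natCast, zpow_natCast, h1,
    div_self (pow_ne_zero _ hζ0)]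

/-- LEAF MU-D (~30 lines).  If `lam ∤ z`, Bezout (`Int.isCoprime_iff_gcd_eq_one`,
`Nat.Prime.coprime_iff_not_dvd`) gives `u z + v lam = 1`, so `1 ∈ J`. -/
theorem dvd_of_intCast_mem {O : Type*} [CommRing O] (J : Ideal O) (hJ : J ≠ ⊤) (lam : ℕ)
    (hlam : lam.Prime) (hmem : (lam : O) ∈ J) (z : ℤ) (hz : (z : O) ∈ J) : (lam : ℤ) ∣ z := by
  by_contra hnd
  obtain ⟨u, v, huv⟩ := ((Nat.prime_iff_prime_int.1 hlam).coprime_iff_not_dvd).2 hnd
  apply hJ
  rw [Ideal.eq_top_iff_one]
  have h1 : ((u : O) * (lam : O) + (v : O) * (z : O)) = 1 := by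
    have := congrArg (Int.cast : ℤ → O) huv
    push_cast at this
    exact this
  rw [← h1]
  exact J.add_mem (J.mul_mem_left _ hmem) (J.mul_mem_left _ hz)

/-- the number of solutions of a Weierstrass equation over a finite field. -/
theorem Small_card_equation_le {F : Type} [Field F] [Fintype F] (W : WeierstrassCurve F) :
    Nat.card {p : F × F // W.toAffine.Equation p.1 p.2} ≤ 2 * Fintype.card F := by
  classical
  rw [Nat.card_eq_fintype_card, Fintype.card_subtype]
  have := Finset.card_le_mul_card_image_of_maps_to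
    (s := Finset.univ.filter (fun p : F × F => W.toAffine.Equation p.1 p.2))
    (t := (Finset.univ : Finset F)) (f := Prod.fst) (fun _ _ => Finset.mem_univ _) 2 ?_
  · simpa using this
  intro x _
  by_contra hcon
  rw [not_le, Finset.two_lt_card_iff] at hcon
  obtain ⟨⟨x1, y1⟩, ⟨x2, y2⟩, ⟨x3, y3⟩, h1, h2, h3, h12, h13, h23⟩ := hcon
  simp only [Finset.mem_filter, Finset.mem_univ, true_and] at h1 h2 h3
  obtain ⟨e1, rfl⟩ := h1
  obtain ⟨e2, rfl⟩ := h2
  obtain ⟨e3, h3'⟩ := h3
  subst h3'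
  rw [WeierstrassCurve.Affine.equation_iff] at e1 e2 e3
  have n12 : y1 - y2 ≠ 0 := fun h => h12 (by rw [sub_eq_zero.1 h])
  have n13 : y1 - y3 ≠ 0 := fun h => h13 (by rw [sub_eq_zero.1 h])
  have n23 : y2 - y3 ≠ 0 := fun h => h23 (by rw [sub_eq_zero.1 h])
  have k12 : (y1 - y2) * (y1 + y2 + W.a₁ * x3 + W.a₃) = 0 := by linear_combination e1 - e2
  have k13 : (y1 - y3) * (y1 + y3 + W.a₁ * x3 + W.a₃) = 0 := by linear_combination e1 - e3
  have l12 := (mul_eq_zero.1 k12).resolve_left n12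
  have l13 := (mul_eq_zero.1 k13).resolve_left n13
  exact n23 (by linear_combination l12 - l13)

/-- the number of points of a Weierstrass curve over a finite field. -/
theorem Small_card_point_le {F : Type} [Field F] [Fintype F] (W : WeierstrassCurve F) :
    Nat.card W.toAffine.Point ≤ 2 * Fintype.card F + 1 := by
  classical
  let f : W.toAffine.Point → Option {p : F × F // W.toAffine.Equation p.1 p.2} := fun P =>
    match P with
    | .zero => none
    | .some x y h => Option.some ⟨(x, y), h.1⟩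
  have hf : Function.Injective f := by
    rintro (_ | ⟨x₁, y₁, h₁⟩) (_ | ⟨x₂, y₂, h₂⟩) h <;>
      simp only [f, Option.some.injEq, Subtype.mk.injEq, Prod.mk.injEq, reduceCtorEq] at h
    · rfl
    · obtain ⟨rfl, rfl⟩ := h; rfl
  have h1 := Nat.card_le_card_of_injective f hf
  rw [Finite.card_option] at h1
  exact h1.trans (Nat.add_le_add_right (Small_card_equation_le W) 1)

/-- LEAF MU-E (~40 lines).  `1 ≤ #Ē(𝔽_q) ≤ 2q + 1`: the point at infinity; for each `x` at most two
`y` (roots of a monic quadratic over the field `ZMod q`), e.g. inject the affine points into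
`ZMod q × Bool`, or bound fibres of `x`.  `apOfModel q = q + 1 - card` by definition
(`WeierstrassCurve.apOfModel`, `traceOfFrobenius`, `card`, `Nat.card_zmod`); finiteness:
Prelude `WeierstrassCurve.Affine.Point.instFinite`. -/
theorem abs_apOfModel_le (W : WeierstrassCurve ℤ) (q : ℕ) (hq : q.Prime) :
    -(q : ℤ) ≤ W.apOfModel q ∧ W.apOfModel q ≤ q := by
  have : Fact q.Prime := ⟨hq⟩
  have h1 := Small_card_point_le (W.reductionMod q)
  rw [ZMod.card] at h1
  have h2 : 0 < Nat.card (W.reductionMod q).toAffine.Point := Nat.card_pos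
  have h3 : W.apOfModel q = (q : ℤ) + 1 - (Nat.card (W.reductionMod q).toAffine.Point : ℤ) := by
    rw [WeierstrassCurve.apOfModel, WeierstrassCurve.traceOfFrobenius, WeierstrassCurve.card,
      Nat.card_zmod]
  rw [h3]
  constructor <;> omega

end Fermat.Agent.S58
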