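import Fermat.Agent.S58.Main.Unip
import Fermat.Agent.S58.Main.Adic

/-!
# S58, block MAIN, step (A) : the level of the newform is not divisible by `q²`, `q ≠ p`
-/

set_option autoImplicit false

namespace Fermat.Agent.S58

open Polynomial ModularFormClass CongruenceSubgroup

theorem not_sq_dvd_level (h36 : S36Stmt) (hQ : StmtQuad) (hI : StmtInert) (hT : StmtTors)
    (hR : StmtRes) {W : WeierstrassCurve ℤ} {N M : ℕ} {g : CuspForm (Gamma0 M) 2}
    (h : Setup W N M g) (hss : W.IsSemistableModel) (p : ℕ) [Fact p.Prime] (hp2 : p ≠ 2)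
    (hirr : W.ModRepIsIrreducible p) (hN3 : ∀ q : ℕ, q.Prime → ¬ q ^ 3 ∣ N)
    (q : ℕ) (hq : q.Prime) (hqp : q ≠ p) : ¬ q ^ 2 ∣ M := by
  intro hq2
  have hp : p.Prime := Fact.out
  haveI : NeZero M := ⟨h.hM.ne'⟩
  obtain ⟨chig, iota, hchig, hiota⟩ := exists_chig_iota h p
  have hpZ : (p : ℤ_[p]) ∈ IsLocalRing.maximalIdeal ℤ_[p] := by
    rw [IsLocalRing.mem_maximalIdeal, mem_nonunits_iff]
    exact PadicInt.p_nonunit
  have hnd : ∀ ℓ : ℕ, ℓ.Prime → ℓ ∉ N.primeFactors ∪ {p} → ¬ ℓ ∣ M := by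
    intro ℓ hℓ hmem hd
    apply hmem
    rw [Finset.mem_union]
    exact Or.inl (Nat.mem_primeFactors.mpr ⟨hℓ, hd.trans h.hMN, h.hN.ne'⟩)
  obtain ⟨O'', i1, i2, i3, i4, i5, i6, i7, i8, i9, hinj, ρ, hρ, hnot⟩ :=
    h36 h.new p (N.primeFactors ∪ {p}) ℤ_[p] hpZ hp2 chig hchig iota (by simp)
      (fun r hr hrM => Finset.mem_union.mpr
        (Or.inl (Nat.mem_primeFactors.mpr ⟨hr, hrM.trans h.hMN, h.hN.ne'⟩)))
      (by
        intro O'' _ _ _ _ _ _ _ _ _ hinj ρ hρ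
        have hpO := (natCast_mem_maximalIdeal_of_algebra p O'').2
        haveI := charP_residueField p hp hpO
        have htr : HasTraces W ρ.ρ (N.primeFactors ∪ {p}) := by
          intro ℓ hℓ hmem A hA σ hσ
          have hℓp : ℓ ≠ p := by
            rintro rfl
            exact hmem (by simp)
          rw [hρ ℓ hℓ hℓp (hnd ℓ hℓ hmem) (by simpa using hmem) A hA σ hσ, hiota, map_intCast]
        exact hR W h.hΔ p hp2 hirr _ ρ.residual (N.primeFactors ∪ {p})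
          (residual_hasTraces W ρ _ htr))
  have hpO := (natCast_mem_maximalIdeal_of_algebra p O'').2
  have htr : HasTraces W ρ.ρ (N.primeFactors ∪ {p}) := by
    intro ℓ hℓ hmem A hA σ hσ
    rw [hρ ℓ hℓ (hnd ℓ hℓ hmem) (by simpa using hmem) A hA σ hσ, hiota, map_intCast]
  refine hnot q hq hqp ?_ (isUnipotentOnInertiaAt_of_hasTraces hQ hI hT W h.hΔ p hp2 O'' hpO ρ _ htr
    q hq hqp (hss q hq))
  -- `v_q(M) = 2`
  have h1 : 2 ≤ M.factorization q := (hq.pow_dvd_iff_le_factorization h.hM.ne').mp hq2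
  have h2 : ¬ 3 ≤ M.factorization q := fun h3 =>
    hN3 q hq (((hq.pow_dvd_iff_le_factorization h.hM.ne').mpr h3).trans h.hMN)
  omega

end Fermat.Agent.S58
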