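import Fermat.Agent.S58.Main.Small
import Fermat.Agent.S58.Quad.Mu

/-!
# S58, block MAIN : an adic representation with the traces of a curve semistable at `q ≠ p` is
unipotent on inertia at `q`
-/

set_option autoImplicit false

namespace Fermat.Agent.S58

open Polynomial

/-- a monic polynomial of degree two with the coefficients of `(X - 1) ^ 2`. -/
theorem Unip_eq_sq {O : Type*} [CommRing O] [Nontrivial O] {f : O[X]} (hm : f.Monic)
    (hdeg : f.natDegree = 2) (h1 : f.coeff 1 = -2) (h0 : f.coeff 0 = 1) : f = (X - 1) ^ 2 := by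
  have hg : ((X - 1) ^ 2 : O[X]) = X ^ 2 + C (-2) * X + C 1 := by
    simp only [map_neg, map_one, map_ofNat]
    ring
  have h2 : f.coeff 2 = 1 := by
    have := hm.coeff_natDegree
    rwa [hdeg] at this
  rw [hg]
  ext i
  rcases i with _ | _ | _ | i
  · simp [h0]
  · simp [h1, coeff_one]
  · simp [h2, coeff_one]
  · rw [coeff_eq_zero_of_natDegree_lt (by omega)]
    simp [coeff_X_pow, coeff_one]

/-- LEAF MU-C (~150 lines).  Fix `A ∣ q`, `σ` in inertia.  For every `n`: `StmtQuad` with `R = O`,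
`V = ρ.V`, `r = ρ.ρ`, `I = 𝔪 ^ n`, `L` from `ρ.isAdicContinuous n`, `m = p ^ n` gives `t, d` with
`coeff 1 + t ∈ 𝔪^n`, `coeff 0 - d ∈ 𝔪^n`.  `σ ζ = ζ` on `μ_{p^n}` (`inertia_rootOfUnity`), so
`p^n ∣ d - 1` (`modEq_of_forall_rootOfUnity` with `e = 1`).  `StmtInert` (`p^n` is odd, `q ∤ p^n`)
reads `σ²P - 2σP + P = 0`; with `P` of exact order `p^n` (`StmtTors.exact`),
`dvd_sub_of_two_relations` gives `p^n ∣ t - 2`.  As `p ∈ 𝔪`, `(p^n : O) ∈ 𝔪^n`, so
`coeff 1 + 2 ∈ 𝔪^n`, `coeff 0 - 1 ∈ 𝔪^n` for all `n`; Krull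
(`Ideal.iInf_pow_eq_bot_of_isLocalRing`, `O` noetherian local) gives `coeff 1 = -2`, `coeff 0 = 1`.
The charpoly is monic of degree `finrank = 2` (`LinearMap.charpoly_monic`,
`LinearMap.charpoly_natDegree`), hence equals `X² - 2X + 1 = (X - 1)²`
(`Polynomial.ext`, coefficients `0, 1, 2`, `> 2`). -/
theorem isUnipotentOnInertiaAt_of_hasTraces (hQ : StmtQuad) (hI : StmtInert) (hT : StmtTors)
    (W : WeierstrassCurve ℤ) (hΔ : W.Δ ≠ 0) (p : ℕ) [Fact p.Prime] (hp2 : p ≠ 2)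
    (O : Type) [CommRing O] [IsDomain O] [IsDiscreteValuationRing O]
    (hpO : (p : O) ∈ IsLocalRing.maximalIdeal O)
    (ρ : GaloisRepAdic O) (B : Finset ℕ) (hρ : HasTraces W ρ.ρ B)
    (q : ℕ) (hq : q.Prime) (hqp : q ≠ p) (hss : (q : ℤ) ∣ W.Δ → ¬ (q : ℤ) ∣ W.c₄) :
    ρ.IsUnipotentOnInertiaAt q := by
  intro A hA σ hσ
  have hp : p.Prime := Fact.out
  have key : ∀ n : ℕ,
      (LinearMap.charpoly (ρ.ρ σ)).coeff 1 + 2 ∈ IsLocalRing.maximalIdeal O ^ n ∧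
      (LinearMap.charpoly (ρ.ρ σ)).coeff 0 - 1 ∈ IsLocalRing.maximalIdeal O ^ n := by
    intro n
    obtain ⟨L, hL, hLρ⟩ := ρ.isAdicContinuous n
    obtain ⟨t, d, ht, hd, hζ, hP⟩ := hQ W hΔ O ρ.V ρ.finrank_eq ρ.ρ
      (IsLocalRing.maximalIdeal O ^ n) L hL hLρ B hρ (p ^ n) (pow_pos hp.pos n) σ
    have hqpn : ¬ q ∣ p ^ n := fun h =>
      hqp ((Nat.prime_dvd_prime_iff_eq hq hp).mp (hq.dvd_of_dvd_pow h))
    have hd1 : ((p ^ n : ℕ) : ℤ) ∣ (d : ℤ) - ((1 : ℕ) : ℤ) :=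
      modEq_of_forall_rootOfUnity (p ^ n) (pow_pos hp.pos n) d 1 (fun ζ h => by
        rw [← hζ ζ h, inertia_rootOfUnity hq hA hσ hqpn h, pow_one])
    rw [Nat.cast_one] at hd1
    obtain ⟨P, hPord⟩ := hT.exact W hΔ p hp n
    have hP0 : (p ^ n) • P = 0 := by rw [← hPord]; exact addOrderOf_nsmul_eq_zero P
    have hodd : Odd (p ^ n) := (hp.odd_of_ne_two hp2).pow
    have hin := hI W q hq hΔ hss A hA σ hσ (p ^ n) hodd hqpn P hP0
    have hrel : σ • σ • P - (2 : ℤ) • σ • P + (1 : ℤ) • P = 0 := by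
      rw [smul_sub] at hin
      have h3 : σ • σ • P = σ • P - P + σ • P := by rw [← hin]; abel
      rw [two_zsmul, one_zsmul, h3]
      abel
    have ht2 := dvd_sub_of_two_relations W σ P (p ^ n) hPord t 2 d 1 (hP P hP0) hrel hd1
    have hpn : ((p ^ n : ℕ) : O) ∈ IsLocalRing.maximalIdeal O ^ n := by
      push_cast
      exact Ideal.pow_mem_pow hpO n
    have hmem : ∀ z : ℤ, ((p ^ n : ℕ) : ℤ) ∣ z → (z : O) ∈ IsLocalRing.maximalIdeal O ^ n := by
      rintro z ⟨c, rfl⟩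
      rw [Int.cast_mul, Int.cast_natCast]
      exact Ideal.mul_mem_right _ _ hpn
    constructor
    · have h4 := Ideal.sub_mem _ ht (hmem _ ht2)
      push_cast at h4
      convert h4 using 1
      ring
    · have h4 := Ideal.add_mem _ hd (hmem _ hd1)
      push_cast at h4
      convert h4 using 1
      ring
  have hbot : ⨅ n : ℕ, IsLocalRing.maximalIdeal O ^ n = ⊥ :=
    Ideal.iInf_pow_eq_bot_of_isLocalRing _ Ideal.IsPrime.ne_top'
  have hz : ∀ x : O, (∀ n : ℕ, x ∈ IsLocalRing.maximalIdeal O ^ n) → x = 0 := by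
    intro x hx
    have : x ∈ ⨅ n : ℕ, IsLocalRing.maximalIdeal O ^ n := by
      rw [Ideal.mem_iInf]; exact hx
    rwa [hbot, Ideal.mem_bot] at this
  have h1 := hz _ (fun n => (key n).1)
  have h0 := hz _ (fun n => (key n).2)
  refine Unip_eq_sq (LinearMap.charpoly_monic _) ?_ (eq_neg_of_add_eq_zero_left h1)
    (sub_eq_zero.mp h0)
  rw [LinearMap.charpoly_natDegree, ρ.finrank_eq]

end Fermat.Agent.S58
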